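import Fermat.Agent.G1.D.Iface
import Fermat.Agent.GR.D.HorizJ

/-!
# G1-D, input (H) for the base function `j` (port of `GR/D/HorizJ.lean`, under `[Inputs]`)

* `ord_jF_sub_le_one`, `ord_jF_inv_sub_le_one`: `FF1 ℚ̄ N / ℚ̄(j)` is unramified outside
  `0, 1728, ∞`;
* `ord_jF_dvd_three'`, `ord_jF_sub_dvd_two'`: ramification indices over `0`, `1728`;
* `transcendental_jF`, `finiteDimensional_FF` for every field of characteristic zero, and the same
  for every `t` with `j ∈ K(t)`.
-/

set_option autoImplicit false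
set_option synthInstance.maxHeartbeats 400000
set_option linter.unusedSectionVars false

noncomputable section

namespace Fermat.Agent.G1.D

open Fermat.Agent.G1 Fermat.Agent.GR Fermat.Agent.GR.D

open AlgebraicCurve IntermediateField ModularCurve Fermat.Agent.S24.Zeros

variable [Inputs]

theorem ord_jF_sub_eq_one' (N : ℕ) [NeZero N] (v : Place Qb (FF1 Qb N)) (c : Qb) (h0 : c ≠ 0)
    (h1 : c ≠ 1728) (hv : 0 < v.ord (C.jF Qb N - algebraMap Qb (FF1 Qb N) c)) :
    v.ord (C.jF Qb N - algebraMap Qb (FF1 Qb N) c) = 1 :=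
  (Inputs.jram N v).generic c h0 h1 hv

theorem ord_jF_dvd_three' (N : ℕ) [NeZero N] (v : Place Qb (FF1 Qb N))
    (hv : 0 < v.ord (C.jF Qb N)) : v.ord (C.jF Qb N) ∣ 3 :=
  (Inputs.jram N v).zero hv

theorem ord_jF_sub_dvd_two' (N : ℕ) [NeZero N] (v : Place Qb (FF1 Qb N))
    (hv : 0 < v.ord (C.jF Qb N - algebraMap Qb (FF1 Qb N) 1728)) :
    v.ord (C.jF Qb N - algebraMap Qb (FF1 Qb N) 1728) ∣ 2 :=
  (Inputs.jram N v).e1728 hv

/-- (H1) -/
theorem ord_jF_sub_le_one (N : ℕ) [NeZero N] (v : Place Qb (FF1 Qb N)) (c : Qb) (h0 : c ≠ 0)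
    (h1 : c ≠ 1728) : v.ord (C.jF Qb N - algebraMap Qb (FF1 Qb N) c) ≤ 1 := by
  by_cases hv : 0 < v.ord (C.jF Qb N - algebraMap Qb (FF1 Qb N) c)
  · exact (ord_jF_sub_eq_one' N v c h0 h1 hv).le
  · omega

theorem ord_jF_inv_sub_le_one (N : ℕ) [NeZero N] (v : Place Qb (FF1 Qb N)) (c : Qb) (h0 : c ≠ 0)
    (h1 : c ≠ 1 / 1728) : v.ord ((C.jF Qb N)⁻¹ - algebraMap Qb (FF1 Qb N) c) ≤ 1 := by
  refine ord_inv_sub_le_one v _ c h0 (ord_jF_sub_le_one N v c⁻¹ (inv_ne_zero h0) ?_)
  intro h
  apply h1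
  rw [← inv_inv c, h]
  norm_num

/-! ### (H0): transcendence and finiteness over any field of characteristic zero -/

omit [Inputs] in
theorem transcendental_jF (K : Type*) [Field K] (N : ℕ) : Transcendental K (C.jF K N) := by
  rw [← transcendental_algebraMap_iff (algebraMap (FF1 K N) (LaurentSeries K)).injective]
  exact GR.C.finite_transcendental_jqModC K

/-- (H0) `FF1 K N` is finite over `K(j)`. -/
theorem finiteDimensional_FF (K : Type) [Field K] [CharZero K] (N : ℕ) [NeZero N] :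
    FiniteDimensional K⟮C.jF K N⟯ (FF1 K N) :=
  Inputs.finJ K N

/-- (H0) `FF1 K N` is finite over `K(t)` for every transcendental `t`. -/
theorem finiteDimensional_FF_of_transcendental (K : Type) [Field K] [CharZero K] (N : ℕ)
    [NeZero N] {t : FF1 K N} (ht : Transcendental K t) : FiniteDimensional K⟮t⟯ (FF1 K N) :=
  finiteDimensional_adjoin_of_transcendental (finiteDimensional_FF K N) ht

omit [Inputs] in
/-- transcendence is preserved by base change of the constants. -/
theorem transcendental_bc {K K' : Type*} [Field K] [Field K'] (φ : K →+* K') (N : ℕ)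
    {t : FF1 K N} (hj : C.jF K N ∈ K⟮t⟯) : Transcendental K' (C.bc N φ t) := by
  apply transcendental_of_mem_adjoin (transcendental_jF K' N)
  obtain ⟨r, s, hrs⟩ := (mem_adjoin_simple_iff K _).1 hj
  rw [← C.bc_jF N φ, hrs, map_div₀]
  have key : ∀ r : Polynomial K, C.bc N φ (Polynomial.aeval t r) =
      Polynomial.aeval (C.bc N φ t) (r.map φ) := by
    intro r
    rw [Polynomial.aeval_def, Polynomial.hom_eval₂, Polynomial.aeval_def, Polynomial.eval₂_map]
    congr 1
    exact RingHom.ext fun a => C.bc_algebraMap N φ a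
  rw [key, key]
  have hmem : ∀ r : Polynomial K', Polynomial.aeval (C.bc N φ t) r ∈ K'⟮C.bc N φ t⟯ := fun r =>
    algebra_adjoin_le_adjoin K' _ (Polynomial.aeval_mem_adjoin_singleton K' _)
  exact div_mem (hmem _) (hmem _)

end Fermat.Agent.G1.D
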