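import Fermat.Agent.G1.D.Vert.Data
import Fermat.Agent.G1.C.Basic
import Fermat.Agent.G1.E.Model
import Fermat.Agent.GR.D.HauptTower

/-!
# G1-D: the four inputs of the construction of the model of `X₁(N)`

`G1-D` is the port of `GR/D` (`FF` replaced by `FF1`).  Everything which is specific to the modular
curve enters through the four fields of the class `Inputs` below; all files of `G1/D` are written
under `[Inputs]`, and the final statement is `G1.D.Top.modelExists : [Inputs] → G1.E.ModelExists`.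

* `vdata` (G1-IG, Igusa): the vertical data;
* `finJ`  (G1-C): `FF1 K N` is finite over `K(j)`;
* `jram`  (G1-A/B, uniformisation): ramification of `FF1 ℚ̄ N / ℚ̄(j)`;
* `level` (G1-A/B degree = index, and group theory): the degree of `X₁(N r) → X₁(N)`.
-/

set_option autoImplicit false
set_option synthInstance.maxHeartbeats 400000

noncomputable section

namespace Fermat.Agent.G1.D

open Fermat.Agent.G1 ModularCurve AlgebraicCurve IntermediateField

/-- `ℚ̄`. -/
abbrev Qb : Type := AlgebraicClosure ℚ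

/-- (V) the vertical data exist (Igusa for `Γ₁(N)`). -/
def VertIn : Prop :=
  ∀ (L : Type) [Field L] [CharZero L] (R : ValuationSubring L) [IsDiscreteValuationRing R]
    (N : ℕ) [NeZero N] (ℓ : ℕ) [Fact ℓ.Prime], ¬ ℓ ∣ N →
    ∀ [CharP (IsLocalRing.ResidueField R) ℓ], Nonempty (Vert.VData R L N)

/-- (H0) finiteness over `K(j)`. -/
def FinIn : Prop :=
  ∀ (K : Type) [Field K] [CharZero K] (N : ℕ) [NeZero N],
    FiniteDimensional K⟮C.jF K N⟯ (FF1 K N)

/-- (H) ramification of `j` on `X₁(N)` over `ℚ̄`: unramified outside `0, 1728, ∞`, index dividing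
`3` over `0` and dividing `2` over `1728`. -/
def HorIn : Prop :=
  ∀ (N : ℕ) [NeZero N] (v : Place Qb (FF1 Qb N)), GR.D.Haupt.JRam v (C.jF Qb N)

/-- (LC) the degree of `X₁(2 N) → X₁(N)` is a power of `3` and that of `X₁(3 N) → X₁(N)` is a
power of `2`. -/
def LevelIn : Prop :=
  ∀ (N : ℕ) [NeZero N] (r ℓ : ℕ), (r = 2 ∧ ℓ = 3) ∨ (r = 3 ∧ ℓ = 2) → ¬ r ∣ N → ¬ ℓ ∣ N →
    ∃ k : ℕ, (FF1 Qb N).relfinrank (FF1 Qb (N * r)) = ℓ ^ k

/-- The inputs of G1-D. -/
class Inputs : Prop where
  vdata : VertIn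
  finJ : FinIn
  jram : HorIn
  level : LevelIn

end Fermat.Agent.G1.D
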