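import Fermat.Agent.G1.D.HorizQbar
import Fermat.Agent.G1.D.Top.Main
import Fermat.Agent.G1.C.Finite
import Fermat.Agent.G1.E.Index

/-!
# G1-D: three of the four inputs of `G1/D/Iface.lean` are theorems

`finIn`, `horIn`, `levelIn`; hence `modelExists_of_vert : VertIn → G1.E.ModelExists`: the only
remaining input of G1-D is the existence of the vertical data (Igusa's theorem for `Γ₁(N)`, G1-IG).
-/

set_option autoImplicit false
set_option synthInstance.maxHeartbeats 400000

namespace Fermat.Agent.G1.D

open AlgebraicCurve IntermediateField Fermat.Agent.G1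

/-- (H0) -/
theorem finIn : FinIn := fun K _ _ N _ =>
  C.finiteDimensional_FF K N ((A.algRel N).of_charZero K)

/-- (H) -/
theorem horIn : HorIn := fun N _ v =>
  { nonconst := fun c h => by
      have := transcendental_jF Qb N
      rw [h] at this
      exact this (isAlgebraic_algebraMap c)
    generic := fun c h0 h1 hv => (ramJ N).generic v c h0 h1 hv
    zero := fun hv => (ramJ N).zero v hv
    e1728 := fun hv => (ramJ N).e1728 v hv }

/-- (LC) -/
theorem levelIn : LevelIn := by
  intro N _ r ℓ h hr _
  rcases h with ⟨rfl, rfl⟩ | ⟨rfl, rfl⟩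
  · obtain ⟨k, hk⟩ := E.exists_relIndex_Gpm_two N hr
    exact ⟨k, by rw [E.relfinrank_FF1_mul degStatement N 2, hk]⟩
  · obtain ⟨k, hk⟩ := E.exists_relIndex_Gpm_three N hr
    exact ⟨k, by rw [E.relfinrank_FF1_mul degStatement N 3, hk]⟩

/-- THE DELIVERABLE OF G1-D: the smooth model exists as soon as the vertical data exist. -/
theorem modelExists_of_vert (hV : VertIn) : G1.E.ModelExists :=
  Top.modelExists_of hV finIn horIn levelIn

end Fermat.Agent.G1.D
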