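import Fermat.Agent.G1.D.Close

/-!
# G1-D: final statement

The final statement of G1-D is `Fermat.Agent.G1.D.modelExists_of_vert (hV : VertIn) :
G1.E.ModelExists` in `G1/D/Close.lean` (this file only re-exports it).
-/
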