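import Fermat.Agent.S24.Final
import Fermat.Agent.G1.A.LocalC
import Fermat.Agent.G1.A.DegreeC
import Fermat.Agent.G1.A.AlgRel
import Fermat.Agent.G1.D.HorizJ
import Fermat.Agent.G1.E.BR10

/-!
# G1-D, input (H), part 1 (port of `GR/D/HorizQbar.lean`): ramification of `FF1 ℚ̄ N / ℚ̄(j)` from
the uniformisation data of G1-A; the interfaces `RamJ N` and `E.DegStatement` are proved here.
-/

set_option autoImplicit false
set_option synthInstance.maxHeartbeats 400000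

namespace Fermat.Agent.G1.D

open AlgebraicCurve IntermediateField Fermat.Agent.S24 Fermat.Agent.GR.D
open Fermat.Agent.G1.A (Cosets1 Gpm permOf1)
open scoped MatrixGroups

theorem neg_one_smul_coset (N : ℕ) (x : Cosets1 N) : (-1 : SL(2, ℤ)) • x = x := by
  induction x using Quotient.inductionOn' with
  | h γ =>
    show ((((-1 : SL(2, ℤ)) * γ : SL(2, ℤ))) : Cosets1 N) = (γ : Cosets1 N)
    rw [QuotientGroup.eq]
    have : ((-1 : SL(2, ℤ)) * γ)⁻¹ * γ = -1 := by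
      rw [mul_inv_rev, mul_assoc]
      have h : (-1 : SL(2, ℤ))⁻¹ * γ = γ * (-1) := by
        have h1 : (-1 : SL(2, ℤ))⁻¹ = -1 := by decide
        rw [h1]
        ext i j
        simp
      rw [h, ← mul_assoc, inv_mul_cancel, one_mul]
    rw [this]
    exact A.neg_one_mem_Gpm N

theorem coe_A_jF (K : Type) [Field K] (N : ℕ) : A.jF K N = C.jF K N := rfl

theorem ord_dvd_of_unifData (N : ℕ) [NeZero N] (c : Qb) {e0 w : ℕ}
    {g : Equiv.Perm (Cosets1 N)}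
    (U : UnifData Qb (FF1 Qb N) (Cosets1 N) (A.jF Qb N - algebraMap Qb (FF1 Qb N) c) e0 g)
    (hg : g ^ w = 1) (v : Place Qb (FF1 Qb N))
    (hv : 0 < v.ord (A.jF Qb N - algebraMap Qb (FF1 Qb N) c)) :
    v.ord (A.jF Qb N - algebraMap Qb (FF1 Qb N) c) ∣ (w : ℤ) := by
  have := A.finiteDimensional_FF iotaC N
  have : FiniteDimensional Qb⟮A.jF Qb N - algebraMap Qb (FF1 Qb N) c⟯ (FF1 Qb N) :=
    finiteDimensional_of_eq (adjoin_sub_algebraMap (A.jF Qb N) c)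
  have hn : Nat.card (Cosets1 N) =
      Module.finrank Qb⟮A.jF Qb N - algebraMap Qb (FF1 Qb N) c⟯ (FF1 Qb N) := by
    rw [A.finrank_FF iotaC N, finrank_eq_of_eq (adjoin_sub_algebraMap (A.jF Qb N) c)]
  obtain ⟨i, hi⟩ := U.exists_induced
    (transcendental_sub_algebraMap (A.transcendental_jF iotaC N) c) hn v hv
  exact U.ord_dvd_of_period i v hi w (by rw [hg]; rfl)

theorem ord_jF_sub_eq_one (N : ℕ) [NeZero N] (c : Qb) (h0 : c ≠ 0) (h1 : c ≠ 1728)
    (v : Place Qb (FF1 Qb N)) (hv : 0 < v.ord (A.jF Qb N - algebraMap Qb (FF1 Qb N) c)) :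
    v.ord (A.jF Qb N - algebraMap Qb (FF1 Qb N) c) = 1 := by
  obtain ⟨τ, hτ⟩ := exists_jfun_eq (iotaC c)
  obtain ⟨U, -, -⟩ := (A.preUnifGeneric iotaC N c h0 h1 τ hτ).toUnifData
  have h := ord_dvd_of_unifData N c (w := 1) U (by simp) v hv
  exact Int.eq_one_of_dvd_one hv.le (by simpa using h)

theorem ord_jF_dvd_three (N : ℕ) [NeZero N]
    (v : Place Qb (FF1 Qb N)) (hv : 0 < v.ord (A.jF Qb N)) : v.ord (A.jF Qb N) ∣ 3 := by
  obtain ⟨U, -, -⟩ := (A.preUnifZero iotaC N).toUnifData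
  have e : A.jF Qb N = A.jF Qb N - algebraMap Qb (FF1 Qb N) 0 := by simp
  rw [e] at hv ⊢
  refine ord_dvd_of_unifData N 0 (w := 3) U ?_ v hv
  ext x
  rw [A.local_permOf_pow, local_ST_cube, neg_one_smul_coset]
  rfl

theorem ord_jF_sub_dvd_two (N : ℕ) [NeZero N]
    (v : Place Qb (FF1 Qb N)) (hv : 0 < v.ord (A.jF Qb N - algebraMap Qb (FF1 Qb N) 1728)) :
    v.ord (A.jF Qb N - algebraMap Qb (FF1 Qb N) 1728) ∣ 2 := by
  obtain ⟨U, -, -⟩ := (A.preUnif1728 iotaC N).toUnifData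
  refine ord_dvd_of_unifData N 1728 (w := 2) U ?_ v hv
  ext x
  rw [A.local_permOf_pow, local_S_sq, neg_one_smul_coset]
  rfl

/-- INTERFACE: ramification of `FF1 ℚ̄ N / ℚ̄(j)`. -/
structure RamJ (N : ℕ) : Prop where
  generic : ∀ (v : Place Qb (FF1 Qb N)) (c : Qb), c ≠ 0 → c ≠ 1728 →
    0 < v.ord (C.jF Qb N - algebraMap Qb (FF1 Qb N) c) →
    v.ord (C.jF Qb N - algebraMap Qb (FF1 Qb N) c) = 1
  zero : ∀ (v : Place Qb (FF1 Qb N)), 0 < v.ord (C.jF Qb N) → v.ord (C.jF Qb N) ∣ 3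
  e1728 : ∀ (v : Place Qb (FF1 Qb N)), 0 < v.ord (C.jF Qb N - algebraMap Qb (FF1 Qb N) 1728) →
    v.ord (C.jF Qb N - algebraMap Qb (FF1 Qb N) 1728) ∣ 2

/-- THE INTERFACE `RamJ` HOLDS. -/
theorem ramJ (N : ℕ) [NeZero N] : RamJ N where
  generic v c h0 h1 hv := ord_jF_sub_eq_one N c h0 h1 v hv
  zero v hv := ord_jF_dvd_three N v hv
  e1728 v hv := ord_jF_sub_dvd_two N v hv

/-- THE INTERFACE `DegStatement` HOLDS. -/
theorem degStatement : E.DegStatement := fun N _ => A.finrank_FF iotaC N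

end Fermat.Agent.G1.D
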