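import Fermat.Agent.G1.D.Final

/-!
# G1-D: the three inputs `FinIn`, `HorIn`, `LevelIn` are theorems

They are proved in `G1/D/HorizQbar.lean` (`horIn`) and `G1/D/Final.lean` (`finIn`, `levelIn`,
`modelExists_of_vert`); this file only re-exports the final statement under the name announced in
the task list.
-/

set_option autoImplicit false

namespace Fermat.Agent.G1.D

/-- the smooth model of `X₁(N)` exists as soon as the vertical data exist. -/
theorem modelExists_of_vertIn (hV : VertIn) : G1.E.ModelExists :=
  Top.modelExists_of hV finIn horIn levelIn

end Fermat.Agent.G1.D
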